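import Mathlib

/-!
# Row LT, tower T3, leaf T3.18b `LeafEKAlg` (helper732): the CORE (Mathlib only)

OFF-MAIN.  Pure algebra on the coordinate group `Crd732 ι = ℤ² × (ℝ²)^ι` (`ι` a finite type; in the
application `ι = InfinitePlace K`).  Complete proofs, nothing assumed.

For `n ≥ 1` and `ℓ : ι → ℝ` let `c₀ = ((n, 0), (ℓ_w, 0)_w)`.  The swap group
`S = Bool × (ι → Bool)` acts on `Crd732 ι` (swap of the two coordinates at each place).  With
`Φ₁ = δ_{(0,0)} ⊗ ⊗_w (bump ⊗ bump)` put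

`Φ = ∏_{t ∈ S} (1 - τ_{t c₀}) Φ₁ = ∑_{T ⊆ S} (-1)^{|T|} Φ₁(· - ∑_{t ∈ T} t c₀)`.

Then (`exists_ekPhi732`)
* `Φ` is in the span of the symmetric pure tensors (`Φ` is `S`-invariant; the average over `S` of a
  translate of `Φ₁` is a symmetric pure tensor);
* `∑_{j ∈ ℤ} Φ(Δ + j c₀) = 0` for every `Δ` (`Φ = (1 - τ_{c₀}) Φ₂`, finitely many terms);
* `∑_m (∫ Φ(m, x) dx) z₁^{m₁} z₂^{m₂} = (∫ bump)^{2|ι|} ∏_{t ∈ S} (1 - z_{i(t)}ⁿ) ≠ 0` as soon as
  `z₁, z₂ ≠ 0`, `z₁ⁿ ≠ 1`, `z₂ⁿ ≠ 1`.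
-/

set_option autoImplicit false

open MeasureTheory Finset

noncomputable section

namespace Fermat.Agent.LT.T3.H732

/-- The coordinate group `ℤ² × (ℝ²)^ι`. -/
abbrev Crd732 (ι : Type) : Type := (ℤ × ℤ) × (ι → ℝ × ℝ)

/-- The swap group. -/
abbrev Sw732 (ι : Type) : Type := Bool × (ι → Bool)

/-- Swap of the two coordinates (if `b`), as an additive map. -/
def sw732 {α : Type} [AddCommGroup α] (b : Bool) : α × α →+ α × α where
  toFun p := bif b then (p.2, p.1) else p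
  map_zero' := by cases b <;> rfl
  map_add' p q := by cases b <;> rfl

@[simp] lemma sw732_true {α : Type} [AddCommGroup α] (p : α × α) :
    sw732 true p = (p.2, p.1) := rfl

@[simp] lemma sw732_false {α : Type} [AddCommGroup α] (p : α × α) :
    sw732 false p = p := rfl

lemma sw732_sw732 {α : Type} [AddCommGroup α] (a b : Bool) (p : α × α) :
    sw732 a (sw732 b p) = sw732 (xor a b) p := by
  cases a <;> cases b <;> rfl

lemma sw732_eq_zero {α : Type} [AddCommGroup α] (b : Bool) (p : α × α) :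
    sw732 b p = 0 ↔ p = 0 := by
  cases b
  · simp
  · simp only [sw732_true, Prod.ext_iff, Prod.fst_zero, Prod.snd_zero]
    tauto

variable {ι : Type}

/-- The action of the swap group on the coordinate group. -/
def act732 (s : Sw732 ι) : Crd732 ι →+ Crd732 ι where
  toFun y := (sw732 s.1 y.1, fun w => sw732 (s.2 w) (y.2 w))
  map_zero' := by
    refine Prod.ext (map_zero _) ?_
    funext w
    exact map_zero _
  map_add' y y' := by
    refine Prod.ext (map_add _ _ _) ?_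
    funext w
    exact map_add _ _ _

@[simp] lemma act732_fst (s : Sw732 ι) (y : Crd732 ι) : (act732 s y).1 = sw732 s.1 y.1 := rfl

@[simp] lemma act732_snd (s : Sw732 ι) (y : Crd732 ι) (w : ι) :
    (act732 s y).2 w = sw732 (s.2 w) (y.2 w) := rfl

/-- The product of the swap group. -/
def sx732 (s t : Sw732 ι) : Sw732 ι := (xor s.1 t.1, fun w => xor (s.2 w) (t.2 w))

lemma sx732_sx732 (s t : Sw732 ι) : sx732 s (sx732 s t) = t := by
  refine Prod.ext ?_ ?_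
  · simp [sx732]
  · funext w
    simp [sx732]

/-- Left multiplication in the swap group, as a permutation. -/
def sxEquiv732 (s : Sw732 ι) : Sw732 ι ≃ Sw732 ι where
  toFun := sx732 s
  invFun := sx732 s
  left_inv := sx732_sx732 s
  right_inv := sx732_sx732 s

lemma act732_act732 (s t : Sw732 ι) (y : Crd732 ι) :
    act732 s (act732 t y) = act732 (sx732 s t) y := by
  refine Prod.ext ?_ ?_
  · exact sw732_sw732 _ _ _
  · funext w
    exact sw732_sw732 _ _ _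

lemma act732_self (s : Sw732 ι) (y : Crd732 ι) : act732 s (act732 s y) = y := by
  rw [act732_act732]
  refine Prod.ext ?_ ?_
  · simp [sx732]
  · funext w
    simp [sx732]

/-- The unit element of the swap group. -/
def one732 (ι : Type) : Sw732 ι := (false, fun _ => false)

lemma act732_one (y : Crd732 ι) : act732 (one732 ι) y = y := rfl

/-! ## The functions -/

/-- The bump function on `ℝ`. -/
def bump732 : ContDiffBump (0 : ℝ) := ⟨1, 2, zero_lt_one, one_lt_two⟩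

/-- `bump ⊗ bump` on `ℝ²`, with complex values. -/
def B732 (p : ℝ × ℝ) : ℂ := ((bump732 p.1 * bump732 p.2 : ℝ) : ℂ)

lemma B732_sw (b : Bool) (p : ℝ × ℝ) : B732 (sw732 b p) = B732 p := by
  cases b
  · rfl
  · simp [B732, mul_comm]

variable [Fintype ι]

/-- `Φ₁ = δ_{(0,0)} ⊗ ⊗_w (bump ⊗ bump)`. -/
def Phi1_732 (y : Crd732 ι) : ℂ := (if y.1 = 0 then 1 else 0) * ∏ w, B732 (y.2 w)

lemma Phi1_732_act (s : Sw732 ι) (y : Crd732 ι) : Phi1_732 (act732 s y) = Phi1_732 y := by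
  unfold Phi1_732
  simp only [act732_fst, act732_snd, B732_sw, sw732_eq_zero]

/-- `c₀ = ((n, 0), (ℓ_w, 0)_w)`. -/
def c0_732 (n : ℕ) (ℓ : ι → ℝ) : Crd732 ι := (((n : ℤ), 0), fun w => (ℓ w, 0))

/-- The sum of the translates `t c₀`, `t ∈ T`. -/
def cT732 (n : ℕ) (ℓ : ι → ℝ) (T : Finset (Sw732 ι)) : Crd732 ι :=
  ∑ t ∈ T, act732 t (c0_732 n ℓ)

open scoped Classical in
/-- `Φ = ∏_{t ∈ S} (1 - τ_{t c₀}) Φ₁`, expanded. -/
def Phi732 (n : ℕ) (ℓ : ι → ℝ) (y : Crd732 ι) : ℂ :=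
  ∑ T : Finset (Sw732 ι), (-1) ^ T.card * Phi1_732 (y - cT732 n ℓ T)


/-! ## Invariance under the swap group -/

omit [Fintype ι] in
open scoped Classical in
lemma cT732_map (n : ℕ) (ℓ : ι → ℝ) (s : Sw732 ι) (T : Finset (Sw732 ι)) :
    cT732 n ℓ (T.map (sxEquiv732 s).toEmbedding) = act732 s (cT732 n ℓ T) := by
  unfold cT732
  rw [Finset.sum_map, map_sum]
  refine Finset.sum_congr rfl fun t _ => ?_
  rw [act732_act732]
  rfl

open scoped Classical in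
lemma Phi732_act (n : ℕ) (ℓ : ι → ℝ) (s : Sw732 ι) (y : Crd732 ι) :
    Phi732 n ℓ (act732 s y) = Phi732 n ℓ y := by
  unfold Phi732
  rw [← Equiv.sum_comp (Equiv.finsetCongr (sxEquiv732 s))
    (fun T => (-1) ^ T.card * Phi1_732 (act732 s y - cT732 n ℓ T))]
  refine Finset.sum_congr rfl fun T _ => ?_
  have h : (Equiv.finsetCongr (sxEquiv732 s)) T = T.map (sxEquiv732 s).toEmbedding := rfl
  rw [h, Finset.card_map, cT732_map, ← map_sub, Phi1_732_act]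

/-! ## Telescoping along `c₀` -/

open scoped Classical in
/-- `Φ₂ = ∏_{t ≠ 1} (1 - τ_{t c₀}) Φ₁`, expanded. -/
def Phi2_732 (n : ℕ) (ℓ : ι → ℝ) (y : Crd732 ι) : ℂ :=
  ∑ T ∈ ((Finset.univ : Finset (Sw732 ι)).erase (one732 ι)).powerset,
    (-1) ^ T.card * Phi1_732 (y - cT732 n ℓ T)

open scoped Classical in
lemma Phi732_eq_sub (n : ℕ) (ℓ : ι → ℝ) (y : Crd732 ι) :
    Phi732 n ℓ y = Phi2_732 n ℓ y - Phi2_732 n ℓ (y - c0_732 n ℓ) := by
  unfold Phi732 Phi2_732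
  have h1 : (Finset.univ : Finset (Finset (Sw732 ι)))
      = (insert (one732 ι) ((Finset.univ : Finset (Sw732 ι)).erase (one732 ι))).powerset := by
    rw [Finset.insert_erase (Finset.mem_univ _), Finset.powerset_univ]
  rw [h1, Finset.sum_powerset_insert (Finset.notMem_erase _ _), sub_eq_add_neg,
    ← Finset.sum_neg_distrib]
  congr 1
  refine Finset.sum_congr rfl fun T hT => ?_
  have hT' : one732 ι ∉ T := fun h =>
    Finset.notMem_erase (one732 ι) Finset.univ (Finset.mem_powerset.mp hT h)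
  have h2 : cT732 n ℓ (insert (one732 ι) T) = c0_732 n ℓ + cT732 n ℓ T := by
    unfold cT732
    rw [Finset.sum_insert hT', act732_one]
  rw [Finset.card_insert_of_notMem hT', pow_succ, h2, sub_add_eq_sub_sub]
  ring

lemma Phi1_732_eq_zero {y : Crd732 ι} (h : y.1 ≠ 0) : Phi1_732 y = 0 := by
  simp [Phi1_732, h]

open scoped Classical in
lemma Phi2_732_ne_zero (n : ℕ) (ℓ : ι → ℝ) {y : Crd732 ι} (h : Phi2_732 n ℓ y ≠ 0) :
    ∃ T : Finset (Sw732 ι), y.1 = (cT732 n ℓ T).1 := by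
  unfold Phi2_732 at h
  obtain ⟨T, _, hT⟩ := Finset.exists_ne_zero_of_sum_ne_zero h
  refine ⟨T, ?_⟩
  by_contra hne
  refine hT ?_
  rw [Phi1_732_eq_zero, mul_zero]
  intro h0
  exact hne (sub_eq_zero.mp h0)

open scoped Classical in
lemma Phi2_732_finite (n : ℕ) (hn : 0 < n) (ℓ : ι → ℝ) (Δ : Crd732 ι) :
    (Function.support fun j : ℤ => Phi2_732 n ℓ (Δ + j • c0_732 n ℓ)).Finite := by
  have hsub : (Function.support fun j : ℤ => Phi2_732 n ℓ (Δ + j • c0_732 n ℓ)) ⊆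
      ⋃ T : Finset (Sw732 ι), {j : ℤ | Δ.1.1 + j * (n : ℤ) = (cT732 n ℓ T).1.1} := by
    intro j hj
    obtain ⟨T, hT⟩ := Phi2_732_ne_zero n ℓ (Function.mem_support.mp hj)
    refine Set.mem_iUnion.mpr ⟨T, ?_⟩
    have := congrArg Prod.fst hT
    simpa [c0_732] using this
  refine Set.Finite.subset (Set.finite_iUnion fun T => ?_) hsub
  refine Set.Subsingleton.finite ?_
  intro j hj j' hj'
  have hj : Δ.1.1 + j * (n : ℤ) = (cT732 n ℓ T).1.1 := hj
  have hj' : Δ.1.1 + j' * (n : ℤ) = (cT732 n ℓ T).1.1 := hj'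
  have hn' : (n : ℤ) ≠ 0 := by exact_mod_cast hn.ne'
  have : j * (n : ℤ) = j' * (n : ℤ) := by linarith
  exact mul_right_cancel₀ hn' this

omit [Fintype ι] in
lemma smul_sub_c0_732 (n : ℕ) (ℓ : ι → ℝ) (Δ : Crd732 ι) (j : ℤ) :
    Δ + j • c0_732 n ℓ - c0_732 n ℓ = Δ + (j - 1) • c0_732 n ℓ := by
  rw [sub_smul, one_smul, add_sub_assoc]

/-- **The telescoping sum**: `∑_{j ∈ ℤ} Φ(Δ + j c₀) = 0`. -/
theorem Phi732_hasSum (n : ℕ) (hn : 0 < n) (ℓ : ι → ℝ) (Δ : Crd732 ι) :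
    HasSum (fun j : ℤ => Phi732 n ℓ (Δ + j • c0_732 n ℓ)) 0 := by
  set g : ℤ → ℂ := fun j => Phi2_732 n ℓ (Δ + j • c0_732 n ℓ) with hgdef
  have hg : Summable g := summable_of_hasFiniteSupport (Phi2_732_finite n hn ℓ Δ)
  have h1 : HasSum g (∑' j, g j) := hg.hasSum
  have h2 : HasSum (g ∘ (Equiv.subRight (1 : ℤ))) (∑' j, g j) :=
    (Equiv.hasSum_iff (Equiv.subRight (1 : ℤ))).mpr h1
  have h3 : HasSum (fun j => g j - (g ∘ (Equiv.subRight (1 : ℤ))) j) (∑' j, g j - ∑' j, g j) :=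
    h1.sub h2
  rw [sub_self] at h3
  have hfun : (fun j : ℤ => Phi732 n ℓ (Δ + j • c0_732 n ℓ))
      = fun j => g j - (g ∘ (Equiv.subRight (1 : ℤ))) j := by
    funext j
    rw [Phi732_eq_sub, smul_sub_c0_732]
    rfl
  rw [hfun]
  exact h3


/-! ## The Fourier--Laplace transform -/

lemma integral_bump732_pos : 0 < ∫ t : ℝ, bump732 t := bump732.integral_pos

lemma integrable_bump732 : Integrable (fun t : ℝ => (bump732 t : ℂ)) :=
  (bump732.integrable (μ := volume)).ofReal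

lemma integrable_B732 : Integrable B732 (volume : Measure (ℝ × ℝ)) := by
  have h := Integrable.mul_prod (μ := (volume : Measure ℝ)) (ν := (volume : Measure ℝ))
    integrable_bump732 integrable_bump732
  refine h.congr (Filter.Eventually.of_forall fun p => ?_)
  simp [B732]

lemma integral_B732 : ∫ p : ℝ × ℝ, B732 p = ((∫ t : ℝ, bump732 t : ℝ) : ℂ) ^ 2 := by
  have h := integral_prod_mul (μ := (volume : Measure ℝ)) (ν := (volume : Measure ℝ))
    (fun t : ℝ => (bump732 t : ℂ)) (fun t : ℝ => (bump732 t : ℂ))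
  have hb : ∫ t : ℝ, ((bump732 t : ℝ) : ℂ) = ((∫ t : ℝ, bump732 t : ℝ) : ℂ) := integral_ofReal
  rw [hb] at h
  rw [sq, ← h]
  refine integral_congr_ae (Filter.Eventually.of_forall fun p => ?_)
  simp [B732]

/-- `J = ∫ ⊗_w (bump ⊗ bump)`. -/
def J732 (ι : Type) [Fintype ι] : ℂ := ∫ x : ι → ℝ × ℝ, ∏ w, B732 (x w)

lemma J732_eq : J732 ι = (((∫ t : ℝ, bump732 t : ℝ) : ℂ) ^ 2) ^ Fintype.card ι := by
  unfold J732
  rw [integral_fintype_prod_volume_eq_pow B732, integral_B732]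

lemma J732_ne_zero : J732 ι ≠ 0 := by
  rw [J732_eq]
  refine pow_ne_zero _ (pow_ne_zero _ ?_)
  exact_mod_cast integral_bump732_pos.ne'

lemma integrable_G732 (c : ι → ℝ × ℝ) :
    Integrable (fun x : ι → ℝ × ℝ => ∏ w, B732 ((x - c) w)) := by
  have h : Integrable (fun x : ι → ℝ × ℝ => ∏ w, B732 (x w)) :=
    Integrable.fintype_prod (f := fun _ : ι => B732) (μ := fun _ => volume)
      (fun _ => integrable_B732)
  exact h.comp_sub_right c

lemma integral_G732 (c : ι → ℝ × ℝ) :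
    ∫ x : ι → ℝ × ℝ, ∏ w, B732 ((x - c) w) = J732 ι :=
  integral_sub_right_eq_self (fun x : ι → ℝ × ℝ => ∏ w, B732 (x w)) c

open scoped Classical in
lemma Phi732_apply (n : ℕ) (ℓ : ι → ℝ) (m : ℤ × ℤ) (x : ι → ℝ × ℝ) :
    Phi732 n ℓ (m, x) = ∑ T : Finset (Sw732 ι),
      ((-1) ^ T.card * (if m = (cT732 n ℓ T).1 then 1 else 0)) *
        ∏ w, B732 ((x - (cT732 n ℓ T).2) w) := by
  unfold Phi732 Phi1_732
  refine Finset.sum_congr rfl fun T _ => ?_
  simp only [Prod.fst_sub, Prod.snd_sub, sub_eq_zero, mul_assoc]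

open scoped Classical in
lemma integral_Phi732 (n : ℕ) (ℓ : ι → ℝ) (m : ℤ × ℤ) :
    ∫ x : ι → ℝ × ℝ, Phi732 n ℓ (m, x) = ∑ T : Finset (Sw732 ι),
      ((-1) ^ T.card * (if m = (cT732 n ℓ T).1 then 1 else 0)) * J732 ι := by
  simp only [Phi732_apply]
  rw [integral_finsetSum]
  · refine Finset.sum_congr rfl fun T _ => ?_
    rw [integral_const_mul, integral_G732]
  · intro T _
    exact (integrable_G732 _).const_mul _

/-- The character `m ↦ z₁^{m₁} z₂^{m₂}`. -/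
def chi732 (z₁ z₂ : ℂ) (m : ℤ × ℤ) : ℂ := z₁ ^ m.1 * z₂ ^ m.2

lemma chi732_zero (z₁ z₂ : ℂ) : chi732 z₁ z₂ 0 = 1 := by simp [chi732]

lemma chi732_add {z₁ z₂ : ℂ} (h₁ : z₁ ≠ 0) (h₂ : z₂ ≠ 0) (m m' : ℤ × ℤ) :
    chi732 z₁ z₂ (m + m') = chi732 z₁ z₂ m * chi732 z₁ z₂ m' := by
  simp only [chi732, Prod.fst_add, Prod.snd_add, zpow_add₀ h₁, zpow_add₀ h₂]
  ring

lemma chi732_sum {z₁ z₂ : ℂ} (h₁ : z₁ ≠ 0) (h₂ : z₂ ≠ 0) {α : Type} (T : Finset α)
    (f : α → ℤ × ℤ) : chi732 z₁ z₂ (∑ t ∈ T, f t) = ∏ t ∈ T, chi732 z₁ z₂ (f t) := by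
  classical
  induction T using Finset.induction_on with
  | empty => simp [chi732_zero]
  | insert a T ha ih => rw [Finset.sum_insert ha, Finset.prod_insert ha, chi732_add h₁ h₂, ih]

omit [Fintype ι] in
lemma chi732_act (n : ℕ) (ℓ : ι → ℝ) (z₁ z₂ : ℂ) (t : Sw732 ι) :
    chi732 z₁ z₂ (act732 t (c0_732 n ℓ)).1 = bif t.1 then z₂ ^ n else z₁ ^ n := by
  rcases t with ⟨i, ε⟩
  cases i <;> simp [chi732, c0_732]

omit [Fintype ι] in
lemma chi732_cT {z₁ z₂ : ℂ} (h₁ : z₁ ≠ 0) (h₂ : z₂ ≠ 0) (n : ℕ) (ℓ : ι → ℝ)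
    (T : Finset (Sw732 ι)) :
    chi732 z₁ z₂ (cT732 n ℓ T).1 = ∏ t ∈ T, (bif t.1 then z₂ ^ n else z₁ ^ n) := by
  unfold cT732
  rw [Prod.fst_sum, chi732_sum h₁ h₂]
  refine Finset.prod_congr rfl fun t _ => ?_
  exact chi732_act n ℓ z₁ z₂ t

open scoped Classical in
/-- **The transform of `Φ`**. -/
theorem ft_Phi732 (n : ℕ) (ℓ : ι → ℝ) {z₁ z₂ : ℂ} (h₁ : z₁ ≠ 0) (h₂ : z₂ ≠ 0) :
    (∑ᶠ m : ℤ × ℤ, (∫ x : ι → ℝ × ℝ, Phi732 n ℓ (m, x)) * z₁ ^ m.1 * z₂ ^ m.2)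
      = J732 ι * ∏ t : Sw732 ι, (1 - bif t.1 then z₂ ^ n else z₁ ^ n) := by
  have hrw : ∀ m : ℤ × ℤ, (∫ x : ι → ℝ × ℝ, Phi732 n ℓ (m, x)) * z₁ ^ m.1 * z₂ ^ m.2
      = ∑ T : Finset (Sw732 ι),
          (if m = (cT732 n ℓ T).1 then ((-1) ^ T.card * J732 ι) * chi732 z₁ z₂ m else 0) := by
    intro m
    rw [integral_Phi732, mul_assoc, Finset.sum_mul]
    refine Finset.sum_congr rfl fun T _ => ?_
    by_cases hm : m = (cT732 n ℓ T).1
    · simp only [if_pos hm, mul_one, chi732]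
    · simp only [if_neg hm, mul_zero, zero_mul]
  simp only [hrw]
  rw [finsum_sum_comm]
  · have hsingle : ∀ T : Finset (Sw732 ι),
        (∑ᶠ m : ℤ × ℤ, (if m = (cT732 n ℓ T).1 then
          ((-1) ^ T.card * J732 ι) * chi732 z₁ z₂ m else 0))
        = ((-1) ^ T.card * J732 ι) * chi732 z₁ z₂ (cT732 n ℓ T).1 := by
      intro T
      rw [finsum_eq_single _ (cT732 n ℓ T).1]
      · simp
      · intro m hm
        simp [hm]
    simp only [hsingle]
    have hprod := Finset.prod_sub (fun _ : Sw732 ι => (1 : ℂ))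
      (fun t : Sw732 ι => bif t.1 then z₂ ^ n else z₁ ^ n) Finset.univ
    rw [hprod, Finset.powerset_univ, Finset.mul_sum]
    refine Finset.sum_congr rfl fun T _ => ?_
    rw [chi732_cT h₁ h₂]
    simp only [Finset.prod_const_one, mul_one]
    ring
  · intro T _
    refine Set.Finite.subset (Set.finite_singleton (cT732 n ℓ T).1) ?_
    intro m hm
    by_contra hne
    exact hm (by simp [show m ≠ (cT732 n ℓ T).1 from hne])

/-- **Non-vanishing of the transform.** -/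
theorem ft_Phi732_ne_zero (n : ℕ) (ℓ : ι → ℝ) {z₁ z₂ : ℂ} (h₁ : z₁ ≠ 0) (h₂ : z₂ ≠ 0)
    (hz₁ : z₁ ^ n ≠ 1) (hz₂ : z₂ ^ n ≠ 1) :
    (∑ᶠ m : ℤ × ℤ, (∫ x : ι → ℝ × ℝ, Phi732 n ℓ (m, x)) * z₁ ^ m.1 * z₂ ^ m.2) ≠ 0 := by
  classical
  rw [ft_Phi732 n ℓ h₁ h₂]
  refine mul_ne_zero J732_ne_zero (Finset.prod_ne_zero_iff.mpr fun t _ => ?_)
  rcases t with ⟨i, ε⟩
  cases i
  · exact sub_ne_zero.mpr (Ne.symm hz₁)
  · exact sub_ne_zero.mpr (Ne.symm hz₂)


/-! ## `Φ` is in the span of the symmetric pure tensors -/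

/-- A symmetric pure tensor on `Crd732 ι` (the definition `T3.IsSymPure` for a general finite
index type). -/
def IsSymPure732 (ι : Type) [Fintype ι] (Φ : Crd732 ι → ℂ) : Prop :=
  ∃ (A : ℤ × ℤ → ℂ) (β : ι → ℝ × ℝ → ℂ),
    (Function.support A).Finite ∧ (∀ m₁ m₂ : ℤ, A (m₁, m₂) = A (m₂, m₁)) ∧
    (∀ w : ι, ContDiff ℝ ((⊤ : ℕ∞) : WithTop ℕ∞) (β w) ∧
      HasCompactSupport (β w) ∧ ∀ x y : ℝ, β w (x, y) = β w (y, x)) ∧
    ∀ (m : ℤ × ℤ) (x : ι → ℝ × ℝ), Φ (m, x) = A m * ∏ w, β w (x w)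

/-- The sum over the swaps of the translate of `δ₀`. -/
def A732 (c : ℤ × ℤ) (m : ℤ × ℤ) : ℂ := ∑ i : Bool, if sw732 i m = c then 1 else 0

/-- The sum over the swaps of the translate of `bump ⊗ bump`. -/
def beta732 (c : ℝ × ℝ) (p : ℝ × ℝ) : ℂ := ∑ e : Bool, B732 (sw732 e p - c)

lemma A732_eq (c m : ℤ × ℤ) :
    A732 c m = (if (m.2, m.1) = c then 1 else 0) + (if m = c then 1 else 0) := by
  unfold A732
  rw [Fintype.sum_bool]
  rfl

lemma beta732_eq (c p : ℝ × ℝ) :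
    beta732 c p = B732 ((p.2, p.1) - c) + B732 (p - c) := by
  simp [beta732]

lemma A732_support (c : ℤ × ℤ) : (Function.support (A732 c)).Finite := by
  refine Set.Finite.subset (Set.toFinite {c, (c.2, c.1)}) ?_
  intro m hm
  rw [Function.mem_support, A732_eq] at hm
  by_cases h1 : m = c
  · exact Or.inl h1
  · by_cases h2 : (m.2, m.1) = c
    · right
      rw [Set.mem_singleton_iff, ← h2]
    · exact absurd (by simp [h1, h2]) hm

lemma A732_symm (c : ℤ × ℤ) (m₁ m₂ : ℤ) : A732 c (m₁, m₂) = A732 c (m₂, m₁) := by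
  rw [A732_eq, A732_eq]
  exact add_comm _ _

lemma beta732_symm (c : ℝ × ℝ) (x y : ℝ) : beta732 c (x, y) = beta732 c (y, x) := by
  rw [beta732_eq, beta732_eq]
  exact add_comm _ _

lemma contDiff_B732 : ContDiff ℝ ((⊤ : ℕ∞) : WithTop ℕ∞) B732 := by
  have h1 : ContDiff ℝ ((⊤ : ℕ∞) : WithTop ℕ∞) (fun p : ℝ × ℝ => bump732 p.1 * bump732 p.2) :=
    (bump732.contDiff.comp contDiff_fst).mul (bump732.contDiff.comp contDiff_snd)
  exact Complex.ofRealCLM.contDiff.comp h1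

lemma hasCompactSupport_B732 : HasCompactSupport B732 := by
  refine HasCompactSupport.intro
    ((isCompact_closedBall (0 : ℝ) 2).prod (isCompact_closedBall (0 : ℝ) 2)) ?_
  intro p hp
  have hp' : ¬ (p.1 ∈ Metric.closedBall (0 : ℝ) 2 ∧ p.2 ∈ Metric.closedBall (0 : ℝ) 2) := by
    intro h
    exact hp (Set.mem_prod.mpr h)
  have hz : bump732 p.1 = 0 ∨ bump732 p.2 = 0 := by
    by_cases h1 : p.1 ∈ Metric.closedBall (0 : ℝ) 2
    · right
      have h2 : p.2 ∉ Metric.closedBall (0 : ℝ) 2 := fun h2 => hp' ⟨h1, h2⟩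
      refine bump732.zero_of_le_dist ?_
      rw [Metric.mem_closedBall, not_le] at h2
      exact h2.le
    · left
      refine bump732.zero_of_le_dist ?_
      rw [Metric.mem_closedBall, not_le] at h1
      exact h1.le
  rcases hz with hz | hz <;> simp [B732, hz]

lemma contDiff_beta732 (c : ℝ × ℝ) : ContDiff ℝ ((⊤ : ℕ∞) : WithTop ℕ∞) (beta732 c) := by
  have h : beta732 c = fun p => B732 ((p.2, p.1) - c) + B732 (p - c) := by
    funext p
    exact beta732_eq c p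
  rw [h]
  refine ContDiff.add ?_ ?_
  · exact contDiff_B732.comp ((contDiff_snd.prodMk contDiff_fst).sub contDiff_const)
  · exact contDiff_B732.comp (contDiff_id.sub contDiff_const)

lemma hasCompactSupport_beta732 (c : ℝ × ℝ) : HasCompactSupport (beta732 c) := by
  have h : beta732 c = (B732 ∘ ((Homeomorph.prodComm ℝ ℝ).trans (Homeomorph.subRight c)))
      + (B732 ∘ (Homeomorph.subRight c)) := by
    funext p
    exact beta732_eq c p
  rw [h]
  exact (hasCompactSupport_B732.comp_homeomorph _).add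
    (hasCompactSupport_B732.comp_homeomorph _)

/-- The sum over the swap group of a translate of `Φ₁` is a symmetric pure tensor. -/
lemma isSymPure732_avg (c : Crd732 ι) :
    IsSymPure732 ι (fun y => A732 c.1 y.1 * ∏ w, beta732 (c.2 w) (y.2 w)) :=
  ⟨A732 c.1, fun w => beta732 (c.2 w), A732_support c.1, A732_symm c.1,
    fun _ => ⟨contDiff_beta732 _, hasCompactSupport_beta732 _, beta732_symm _⟩,
    fun _ _ => rfl⟩

open scoped Classical in
lemma sum_act_Phi1_732 (c : Crd732 ι) (y : Crd732 ι) :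
    ∑ s : Sw732 ι, Phi1_732 (act732 s y - c) = A732 c.1 y.1 * ∏ w, beta732 (c.2 w) (y.2 w) := by
  unfold A732 beta732
  rw [Fintype.sum_prod_type, Finset.sum_mul]
  refine Finset.sum_congr rfl fun i _ => ?_
  rw [Fintype.prod_sum, Finset.mul_sum]
  refine Finset.sum_congr rfl fun ε _ => ?_
  simp only [Phi1_732, Prod.fst_sub, Prod.snd_sub, act732_fst, act732_snd, sub_eq_zero,
    Pi.sub_apply]

open scoped Classical in
lemma Phi732_eq_avg (n : ℕ) (ℓ : ι → ℝ) (y : Crd732 ι) :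
    Phi732 n ℓ y = ∑ T : Finset (Sw732 ι),
      ((-1) ^ T.card * ((Fintype.card (Sw732 ι) : ℂ))⁻¹) *
        (A732 (cT732 n ℓ T).1 y.1 * ∏ w, beta732 ((cT732 n ℓ T).2 w) (y.2 w)) := by
  have hcard : ((Fintype.card (Sw732 ι) : ℂ)) ≠ 0 := by
    have : 0 < Fintype.card (Sw732 ι) := Fintype.card_pos_iff.mpr ⟨one732 ι⟩
    exact_mod_cast this.ne'
  have h1 : (Fintype.card (Sw732 ι) : ℂ) * Phi732 n ℓ y
      = ∑ s : Sw732 ι, Phi732 n ℓ (act732 s y) := by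
    simp only [Phi732_act, Finset.sum_const, Finset.card_univ, nsmul_eq_mul]
  have h2 : ∑ s : Sw732 ι, Phi732 n ℓ (act732 s y)
      = ∑ T : Finset (Sw732 ι), (-1) ^ T.card *
          (A732 (cT732 n ℓ T).1 y.1 * ∏ w, beta732 ((cT732 n ℓ T).2 w) (y.2 w)) := by
    unfold Phi732
    rw [Finset.sum_comm]
    refine Finset.sum_congr rfl fun T _ => ?_
    rw [← Finset.mul_sum, sum_act_Phi1_732]
  have h3 : Phi732 n ℓ y = ((Fintype.card (Sw732 ι) : ℂ))⁻¹ *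
      ((Fintype.card (Sw732 ι) : ℂ) * Phi732 n ℓ y) := by
    field_simp
  rw [h3, h1, h2, Finset.mul_sum]
  refine Finset.sum_congr rfl fun T _ => ?_
  ring

open scoped Classical in
/-- **`Φ` is in the span of the symmetric pure tensors.** -/
theorem Phi732_mem (n : ℕ) (ℓ : ι → ℝ) :
    Phi732 n ℓ ∈ Submodule.span ℂ {Φ : Crd732 ι → ℂ | IsSymPure732 ι Φ} := by
  have h : Phi732 n ℓ = ∑ T : Finset (Sw732 ι),
      ((-1) ^ T.card * ((Fintype.card (Sw732 ι) : ℂ))⁻¹) •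
        (fun y : Crd732 ι =>
          A732 (cT732 n ℓ T).1 y.1 * ∏ w, beta732 ((cT732 n ℓ T).2 w) (y.2 w)) := by
    funext y
    rw [Phi732_eq_avg, Finset.sum_apply]
    rfl
  rw [h]
  exact Submodule.sum_mem _ fun T _ =>
    Submodule.smul_mem _ _ (Submodule.subset_span (isSymPure732_avg _))

/-- **THE CORE**: the function `Φ` of leaf T3.18b. -/
theorem exists_ekPhi732 (ι : Type) [Fintype ι] (n : ℕ) (hn : 0 < n) (ℓ : ι → ℝ) :
    ∃ Φ : (ℤ × ℤ) × (ι → ℝ × ℝ) → ℂ,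
      Φ ∈ Submodule.span ℂ {Φ : (ℤ × ℤ) × (ι → ℝ × ℝ) → ℂ | IsSymPure732 ι Φ} ∧
      (∀ Δ : (ℤ × ℤ) × (ι → ℝ × ℝ),
        HasSum (fun j : ℤ => Φ (Δ + j • ((((n : ℤ), 0), fun w => (ℓ w, 0)) :
          (ℤ × ℤ) × (ι → ℝ × ℝ)))) 0) ∧
      ∀ z₁ z₂ : ℂ, z₁ ≠ 0 → z₂ ≠ 0 → z₁ ^ n ≠ 1 → z₂ ^ n ≠ 1 →
        (∑ᶠ m : ℤ × ℤ, (∫ x : ι → ℝ × ℝ, Φ (m, x)) * z₁ ^ m.1 * z₂ ^ m.2) ≠ 0 :=
  ⟨Phi732 n ℓ, Phi732_mem n ℓ, fun Δ => Phi732_hasSum n hn ℓ Δ,
    fun _ _ h₁ h₂ hz₁ hz₂ => ft_Phi732_ne_zero n ℓ h₁ h₂ hz₁ hz₂⟩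

end Fermat.Agent.LT.T3.H732

end
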