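import Fermat.Agent.LT.T3.EKSpec
import Fermat.Agent.LT.T3.H732.EKCore

/-!
# Row LT, tower T3, leaf T3.18b (helper732): `LeafEKAlg K` PROVED

OFF-MAIN.  `leafEKAlg732 (K) : T3.LeafEKAlg K`, i.e. `AbelSatakeC K → InScalarUnifC K → EKExistC K`
VERBATIM (Spec = origin/helper14@62b2e4958 `LT/T3/{Spec,EKSpec}.lean`, byte-identical copies).
Complete proofs, nothing assumed.

Proof.  `Φ` = the function of `exists_ekPhi732` (`EKCore.lean`) for `ι = InfinitePlace K`,
`ℓ_w = log |α|_w`; `f` = the test function of `AbelSatakeC` for `Φ`.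
* `IsEK`: by (i) the EK sum is `κ(g,g') ∑_j Φ(Δ(g,g') + j c₀) = 0`.
* `c(a,b) = κ₀ Φ^(z₁,z₂)` for a chosen pair of roots `z₁, z₂` of `X² - aX + b` when `b ≠ 0`,
  `c(a,0) = 1`.  Any other pair of roots is the chosen one up to order and the non-vanishing
  criterion is symmetric, so `c(a,b) ≠ 0` when `z₁ⁿ ≠ 1 ≠ z₂ⁿ`.
* `b = 0`: `φ(g) = φ(g z⁻¹ z) = b φ(g z⁻¹) = 0` for a scalar uniformiser `z`, so both sides vanish.
-/

set_option autoImplicit false

open IsDedekindDomain NumberField MeasureTheory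
open Fermat.Agent.LT.H556.A0

noncomputable section

namespace Fermat.Agent.LT.T3.H732

open Fermat.Agent.LT.T3

variable (K : Type) [Field K] [NumberField K]

/-- The symmetric pure tensors of the Spec are those of the core. -/
lemma isSymPure_iff732 (Φ : Coord K → ℂ) :
    IsSymPure K Φ ↔ IsSymPure732 (InfinitePlace K) Φ := Iff.rfl

lemma symSpan_eq732 :
    SymSpan K = Submodule.span ℂ {Φ : Coord K → ℂ | IsSymPure732 (InfinitePlace K) Φ} := rfl

/-- A pair of roots of `X² - aX + b`. -/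
lemma exists_roots732 (a b : ℂ) : ∃ z₁ z₂ : ℂ, z₁ + z₂ = a ∧ z₁ * z₂ = b := by
  obtain ⟨s, hs⟩ := IsAlgClosed.exists_eq_mul_self (a ^ 2 - 4 * b)
  refine ⟨(a + s) / 2, (a - s) / 2, by ring, ?_⟩
  have : (a + s) / 2 * ((a - s) / 2) = (a ^ 2 - s * s) / 4 := by ring
  rw [this, ← hs]
  ring

/-- The first chosen root of `X² - aX + b`. -/
def root1_732 (a b : ℂ) : ℂ := Classical.choose (exists_roots732 a b)

/-- The second chosen root of `X² - aX + b`. -/
def root2_732 (a b : ℂ) : ℂ := Classical.choose (Classical.choose_spec (exists_roots732 a b))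

lemma roots_spec732 (a b : ℂ) :
    root1_732 a b + root2_732 a b = a ∧ root1_732 a b * root2_732 a b = b :=
  Classical.choose_spec (Classical.choose_spec (exists_roots732 a b))

/-- Two pairs with the same sum and product agree up to order. -/
lemma roots_unique732 {z₁ z₂ r₁ r₂ : ℂ} (hs : z₁ + z₂ = r₁ + r₂) (hp : z₁ * z₂ = r₁ * r₂) :
    (r₁ = z₁ ∧ r₂ = z₂) ∨ (r₁ = z₂ ∧ r₂ = z₁) := by
  have h : (r₁ - z₁) * (r₁ - z₂) = 0 := by
    have : (r₁ - z₁) * (r₁ - z₂) = r₁ * r₁ - (z₁ + z₂) * r₁ + z₁ * z₂ := by ring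
    rw [this, hs, hp]
    ring
  rcases mul_eq_zero.mp h with h1 | h1
  · left
    have h1' : r₁ = z₁ := sub_eq_zero.mp h1
    refine ⟨h1', ?_⟩
    have := hs
    rw [h1'] at this
    exact (add_left_cancel this).symm
  · right
    have h1' : r₁ = z₂ := sub_eq_zero.mp h1
    refine ⟨h1', ?_⟩
    have := hs
    rw [h1', add_comm] at this
    exact (add_left_cancel this).symm

/-- A function with Hecke eigenvalue `b = 0` for the scalar uniformisers vanishes. -/
lemma eq_zero_of_b_eq_zero732 (h3 : InScalarUnifC K) {φ : G K → ℂ}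
    {v₀ : HeightOneSpectrum (𝓞 K)} {a : ℂ} (hφ : IsHeckeEigenAt φ v₀ a 0) (g : G K) :
    φ g = 0 := by
  obtain ⟨z, hz⟩ := h3 v₀
  have := hφ.2 z hz (g * z⁻¹)
  rwa [inv_mul_cancel_right, zero_mul] at this

/-- **Leaf T3.18b.** -/
theorem leafEKAlg732 : LeafEKAlg K := by
  intro hAS hSU
  unfold EKExistC
  intro hcplx μ hμ ν hν 𝔫 h𝔫 v₀ hv₀ a₀ n hn hspan ha₀ α hα
  obtain ⟨κ, Δ, κ₀, hκ₀, hΦall⟩ := hAS hcplx μ hμ ν hν 𝔫 h𝔫 v₀ hv₀ a₀ n hn hspan ha₀ α hα
  obtain ⟨Φ, hΦmem, hΦsum, hΦft⟩ :=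
    exists_ekPhi732 (InfinitePlace K) n hn (fun w => Real.log (w (α : K)))
  obtain ⟨f, hfc, hfs, hfbi, hfsupp, hfi, hfii⟩ := hΦall Φ hΦmem
  refine ⟨f, hfc, hfs, ?_, hfbi, hfsupp, ?_⟩
  · -- `IsEK`
    intro g g'
    have h1 : (fun j : ℤ => ∫ x, f (g⁻¹ * unip K x * torK K α ^ j * g') ∂ν)
        = fun j : ℤ => κ g g' * Φ (Δ g g' + j • coordTor K n α) := by
      funext j
      exact hfi g g' j
    rw [h1]
    have h2 := (hΦsum (Δ g g')).mul_left (κ g g')
    rw [mul_zero] at h2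
    exact h2
  · -- the eigenvalue
    classical
    refine ⟨fun a b => if b = 0 then 1 else
      κ₀ * ftCoord K Φ (root1_732 a b) (root2_732 a b), ?_, ?_⟩
    · intro a b z₁ z₂ hs hp hz₁ hz₂
      by_cases hb : b = 0
      · simp only [if_pos hb]
        exact one_ne_zero
      · simp only [if_neg hb]
        obtain ⟨hrs, hrp⟩ := roots_spec732 a b
        have hr₁ : root1_732 a b ≠ 0 := fun h => hb (by rw [← hrp, h, zero_mul])
        have hr₂ : root2_732 a b ≠ 0 := fun h => hb (by rw [← hrp, h, mul_zero])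
        refine mul_ne_zero hκ₀ ?_
        rcases roots_unique732 (hs.trans hrs.symm) (hp.trans hrp.symm) with ⟨e1, e2⟩ | ⟨e1, e2⟩
        · exact hΦft _ _ hr₁ hr₂ (by rw [e1]; exact hz₁) (by rw [e2]; exact hz₂)
        · exact hΦft _ _ hr₁ hr₂ (by rw [e1]; exact hz₂) (by rw [e2]; exact hz₁)
    · intro φ hφ a b hecke g
      by_cases hb : b = 0
      · simp only [if_pos hb, one_mul]
        subst hb
        have hzero : ∀ g : G K, φ g = 0 := eq_zero_of_b_eq_zero732 K hSU hecke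
        rw [hzero g]
        unfold Rop
        simp only [hzero, zero_mul, integral_zero]
      · simp only [if_neg hb]
        obtain ⟨hrs, hrp⟩ := roots_spec732 a b
        exact hfii φ hφ a b _ _ hecke hrs hrp hb g

end Fermat.Agent.LT.T3.H732

end
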